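import Fermat.Agent.CFT.W.Defs

/-!
# CFT / Part W, WP W-CARD : cardinalities of cocycle spaces (`k = ZMod p`).

`d01 ρ : V → B^1` is onto with kernel `V^G`, so `#B^1 · #V^G = #V`; for `B^1 ≤ L` with `L/B^1` finite:
`#L = p^(dim L/B^1) · #B^1`.  (`Nat.card V = p ^ finrank`: `Module.natCard_eq_pow_finrank`/`card_eq_pow_finrank`, `ZMod.card`.)
-/

set_option autoImplicit false

namespace Fermat.Agent.CFT

open Module

variable {p : ℕ} [Fact p.Prime] {G : Type} [Group G] {V : Type} [AddCommGroup V]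
  [Module (ZMod p) V] [Module.Finite (ZMod p) V]

theorem natCard_eq_pow_finrank' (X : Type) [AddCommGroup X] [Module (ZMod p) X]
    [Module.Finite (ZMod p) X] : Finite X ∧ Nat.card X = p ^ finrank (ZMod p) X := by
  have hfin : Finite X := Module.finite_of_finite (ZMod p)
  refine ⟨hfin, ?_⟩
  rw [Module.natCard_eq_pow_finrank (K := ZMod p) (V := X), Nat.card_zmod]

/-- `#L · #V^G = p^(dim L/B^1) · #V` -/
theorem card_mul_invariants (ρ : Representation (ZMod p) G V) (L : Submodule (ZMod p) (G → V))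
    (hge : B1 ρ ≤ L) (hfin : Module.Finite (ZMod p) (↥L ⧸ (B1 ρ).submoduleOf L)) :
    Finite ↥L ∧ Nat.card ↥L * p ^ finrank (ZMod p) ↥ρ.invariants =
      p ^ finrank (ZMod p) (↥L ⧸ (B1 ρ).submoduleOf L) * Nat.card V := by
  have hker : LinearMap.ker (d01 ρ) = ρ.invariants := by
    ext m
    rw [LinearMap.mem_ker, Representation.mem_invariants]
    constructor
    · intro h g
      have := congrFun h g
      rw [d01_apply] at this
      exact sub_eq_zero.1 this
    · intro h
      funext g
      rw [d01_apply, h g, sub_self]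
      rfl
  have hB : Module.Finite (ZMod p) ↥(B1 ρ) := by
    unfold B1
    infer_instance
  have hB' : Module.Finite (ZMod p) ↥((B1 ρ).submoduleOf L) :=
    Module.Finite.equiv (Submodule.submoduleOfEquivOfLe hge).symm
  have hL : Module.Finite (ZMod p) ↥L := Module.Finite.of_submodule_quotient ((B1 ρ).submoduleOf L)
  have h1 : finrank (ZMod p) ↥(B1 ρ) + finrank (ZMod p) ↥ρ.invariants = finrank (ZMod p) V := by
    rw [← hker]
    exact LinearMap.finrank_range_add_finrank_ker (d01 ρ)
  have h2 : finrank (ZMod p) (↥L ⧸ (B1 ρ).submoduleOf L) + finrank (ZMod p) ↥(B1 ρ) =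
      finrank (ZMod p) ↥L := by
    rw [← (Submodule.submoduleOfEquivOfLe hge).finrank_eq]
    exact Submodule.finrank_quotient_add_finrank _
  obtain ⟨hLf, hLc⟩ := natCard_eq_pow_finrank' (p := p) ↥L
  obtain ⟨-, hVc⟩ := natCard_eq_pow_finrank' (p := p) V
  refine ⟨hLf, ?_⟩
  rw [hLc, hVc, ← pow_add, ← pow_add, ← h2, ← h1]
  congr 1
  ring

end Fermat.Agent.CFT
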