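import Fermat.Agent.CFT.W.Defs

/-!
# CFT / Part W, WP W-LOCFIN : finiteness of the local `H^1(G_v,N)` for every finite smooth `N`.

Copy the proof of `finite_H1` (F/Chase2.lean) at `v`: `U` adapted, `N ↪ I = mapRep U N` (`mapRepConst`), `I ≅ perm^n` (`isoRep_mapRep`),
`H^1(G_v, perm)` finite by `GoodLevel.finLoc1` (transport: `IsoRep.comp'`, pattern `IsoRep.H1`, `H1_piRep` of F/Transport.lean for the level group
`(D.Gv v, D.levv v)`); the kernel of `Z^1(G_v,N) → H^1(G_v,I)` embeds in `B^1(G_v,I)`, a quotient of `I`.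
-/

set_option autoImplicit false

namespace Fermat.Agent.CFT

open Module Transport

variable {D : Datum} {k : Type} [Field k] {χ : D.G →* kˣ}
  {lam : ∀ v : D.ι, (D.Gv v × D.Gv v → k) →ₗ[k] k} {Φ : D.CC3 k →ₗ[k] k}

theorem locH1_of_isoRep {V W : Type} [AddCommGroup V] [Module k V] [AddCommGroup W] [Module k W]
    {ρ : Representation k D.G V} {σ : Representation k D.G W} (h : IsoRep ρ σ) (v : D.ι) :
    Nonempty (H1 (D.levv v) (D.loc ρ v) ≃ₗ[k] H1 (D.levv v) (D.loc σ v)) := by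
  obtain ⟨e, he⟩ := h
  have he' := IsoRep.symm_equiv he
  exact quot_iso (e.toLinearMap.compLeft (D.Gv v)) (e.symm.toLinearMap.compLeft (D.Gv v))
    (fun a => funext fun g => e.symm_apply_apply _) (fun a => funext fun g => e.apply_symm_apply _)
    (fun _ => comp_mem_Z1 (ρ := D.loc ρ v) (σ := D.loc σ v) e.toLinearMap
      (fun g x => he (D.r v g) x))
    (fun _ => comp_mem_Z1 (ρ := D.loc σ v) (σ := D.loc ρ v) e.symm.toLinearMap
      (fun g x => he' (D.r v g) x))
    (fun _ => comp_mem_B1 (ρ := D.loc ρ v) (σ := D.loc σ v) e.toLinearMap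
      (fun g x => he (D.r v g) x))
    (fun _ => comp_mem_B1 (ρ := D.loc σ v) (σ := D.loc ρ v) e.symm.toLinearMap
      (fun g x => he' (D.r v g) x))

theorem locH1_piRep {V : Type} [AddCommGroup V] [Module k V] (ρ : Representation k D.G V) (n : ℕ)
    (v : D.ι) : Nonempty (H1 (D.levv v) (D.loc (piRep n ρ) v) ≃ₗ[k]
      (Fin n → H1 (D.levv v) (D.loc ρ v))) := by
  refine quot_pi (fun j => (LinearMap.proj j : (Fin n → V) →ₗ[k] V).compLeft (D.Gv v))
    (fun j => (LinearMap.single k (fun _ : Fin n => V) j).compLeft (D.Gv v))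
    (fun a => funext fun g => ?_) (fun j j' a => funext fun g => ?_)
    (fun j _ => comp_mem_Z1 (ρ := D.loc (piRep n ρ) v) (σ := D.loc ρ v) _
      (fun g x => proj_equiv ρ n j (D.r v g) x))
    (fun j _ => comp_mem_Z1 (ρ := D.loc ρ v) (σ := D.loc (piRep n ρ) v) _
      (fun g x => single_equiv ρ n j (D.r v g) x))
    (fun j _ => comp_mem_B1 (ρ := D.loc (piRep n ρ) v) (σ := D.loc ρ v) _
      (fun g x => proj_equiv ρ n j (D.r v g) x))
    (fun j _ => comp_mem_B1 (ρ := D.loc ρ v) (σ := D.loc (piRep n ρ) v) _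
      (fun g x => single_equiv ρ n j (D.r v g) x))
  · rw [Finset.sum_apply]; exact sum_single_proj (k := k) n (a g)
  · refine (proj_single (k := k) n j j' (a g)).trans ?_
    split_ifs <;> rfl

theorem finite_locZ1 (ctx : D.Ctx χ lam Φ) {N : Type} [AddCommGroup N] [Module k N]
    [FiniteDimensional k N] {ρ : Representation k D.G N} (hρ : IsSmooth D.lev ρ) (v : D.ι) :
    Module.Finite k ↥(Z1 (D.levv v) (D.loc ρ v)) := by
  obtain ⟨U₀, hU₀⟩ := D.lev.nonempty
  obtain ⟨U, -, hU⟩ := exists_adapted ctx hρ hU₀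
  have : U.Normal := D.lev.normal U hU.mem
  have : U.FiniteIndex := D.lev.finiteIndex U hU.mem
  have := hU.good.finLoc1 v
  have iso : IsoRep (mapRep U ρ) (piRep (finrank k N) (permRep k U)) := isoRep_mapRep hU.triv
  obtain ⟨e3⟩ := locH1_of_isoRep iso v
  obtain ⟨e3'⟩ := locH1_piRep (D := D) (permRep k U) (finrank k N) v
  have f2 : Module.Finite k (H1 (D.levv v) (D.loc (mapRep U ρ) v)) :=
    Module.Finite.equiv (e3.trans e3').symm
  let T₀ : ↥(Z1 (D.levv v) (D.loc ρ v)) →ₗ[k] ↥(Z1 (D.levv v) (D.loc (mapRep U ρ) v)) :=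
    ((mapRepConst (k := k) (V := N) U).compLeft (D.Gv v)).restrict
      (fun a ha => comp_mem_Z1 (ρ := D.loc ρ v) (σ := D.loc (mapRep U ρ) v)
        (mapRepConst (k := k) (V := N) U) (fun g x => mapRepConst_equiv U (D.r v g) x) ha)
  let T : ↥(Z1 (D.levv v) (D.loc ρ v)) →ₗ[k] H1 (D.levv v) (D.loc (mapRep U ρ) v) :=
    (Submodule.mkQ _) ∘ₗ T₀
  have hB : Module.Finite k ↥(B1 (D.loc (mapRep U ρ) v)) :=
    inferInstanceAs (Module.Finite k (LinearMap.range (d01 (D.loc (mapRep U ρ) v))))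
  have hmem : ∀ x : ↥(LinearMap.ker T),
      ((T₀ x.1 : ↥(Z1 (D.levv v) (D.loc (mapRep U ρ) v))) : D.Gv v → (D.G ⧸ U → N)) ∈
      B1 (D.loc (mapRep U ρ) v) := by
    intro x
    have hx : T x.1 = 0 := x.2
    have := (Submodule.Quotient.mk_eq_zero _).mp hx
    exact this
  let S : ↥(LinearMap.ker T) →ₗ[k] ↥(B1 (D.loc (mapRep U ρ) v)) :=
    { toFun := fun x => ⟨_, hmem x⟩
      map_add' := fun x y => by
        ext1
        simp
      map_smul' := fun r x => by
        ext1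
        simp }
  have hS : Function.Injective S := by
    intro x y hxy
    have h1 : ((T₀ x.1 : ↥(Z1 (D.levv v) (D.loc (mapRep U ρ) v))) : D.Gv v → (D.G ⧸ U → N)) =
        ((T₀ y.1 : ↥(Z1 (D.levv v) (D.loc (mapRep U ρ) v))) : D.Gv v → (D.G ⧸ U → N)) :=
      congrArg (fun z : ↥(B1 (D.loc (mapRep U ρ) v)) => (z : D.Gv v → (D.G ⧸ U → N))) hxy
    ext g
    exact mapRepConst_injective (k := k) U (congrFun h1 g)
  have h1 : Module.Finite k ↥(LinearMap.ker T) := Module.Finite.of_injective S hS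
  have h2 : Module.Finite k (↥(Z1 (D.levv v) (D.loc ρ v)) ⧸ LinearMap.ker T) :=
    Module.Finite.equiv (LinearMap.quotKerEquivRange T).symm
  exact Module.Finite.of_submodule_quotient (LinearMap.ker T)

theorem finite_LocQ (ctx : D.Ctx χ lam Φ) {N : Type} [AddCommGroup N] [Module k N]
    [FiniteDimensional k N] {ρ : Representation k D.G N} (hρ : IsSmooth D.lev ρ)
    (L : ∀ v : D.ι, Submodule k (D.Gv v → N)) (hle : ∀ v, L v ≤ Z1 (D.levv v) (D.loc ρ v))
    (v : D.ι) : Module.Finite k (D.LocQ ρ L v) := by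
  have h1 := finite_locZ1 ctx hρ v
  have h2 : Module.Finite k ↥(L v) :=
    Module.Finite.of_injective (Submodule.inclusion (hle v)) (Submodule.inclusion_injective _)
  infer_instance

end Fermat.Agent.CFT
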