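import Fermat.Agent.CFT.W.Defs

/-!
# CFT / Part W, WP W-PAIR : a perfect equivariant pairing identifies `ρ'` with `ρ.dual.twist χ`.

`e y = (x ↦ β x y)`; injective by `hβr`; `dim V' = dim V` (`hβl` gives `V ↪ V'^*`, `hβr` gives `V' ↪ V^*`), so bijective.
Equivariance: `(ρ.dual.twist χ g f) x = χ g * f (ρ g⁻¹ x)` and `β x (ρ' g y) = β (ρ g (ρ g⁻¹ x)) (ρ' g y) = χ g * β (ρ g⁻¹ x) y`.
-/

set_option autoImplicit false

namespace Fermat.Agent.CFT

open Module

theorem exists_equiv_of_pairing {k : Type} [Field k] {G : Type} [Group G] {V V' : Type}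
    [AddCommGroup V] [Module k V] [FiniteDimensional k V] [AddCommGroup V'] [Module k V']
    [FiniteDimensional k V'] (ρ : Representation k G V) (ρ' : Representation k G V') (χ : G →* kˣ)
    (β : V →ₗ[k] V' →ₗ[k] k) (hβ : IsEquivPairing ρ ρ' χ β)
    (hβl : ∀ x, (∀ y, β x y = 0) → x = 0) (hβr : ∀ y, (∀ x, β x y = 0) → y = 0) :
    ∃ e : V' ≃ₗ[k] Module.Dual k V, (∀ g y, e (ρ' g y) = (ρ.dual.twist χ) g (e y)) ∧
      ∀ x y, e y x = β x y := by
  have hinj : Function.Injective β.flip := by
    rw [injective_iff_map_eq_zero]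
    intro y hy
    exact hβr y fun x => by
      have := LinearMap.congr_fun hy x
      simpa using this
  have hinj' : Function.Injective β := by
    rw [injective_iff_map_eq_zero]
    intro x hx
    exact hβl x fun y => by
      have := LinearMap.congr_fun hx y
      simpa using this
  have h1 := LinearMap.finrank_le_finrank_of_injective hinj
  have h2 := LinearMap.finrank_le_finrank_of_injective hinj'
  rw [Subspace.dual_finrank_eq] at h1 h2
  have hdim : finrank k V' = finrank k (Module.Dual k V) := by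
    rw [Subspace.dual_finrank_eq]
    exact le_antisymm h1 h2
  refine ⟨LinearEquiv.ofInjectiveOfFinrankEq β.flip hinj hdim, fun g y => ?_, fun x y => rfl⟩
  ext x
  show β x (ρ' g y) = (χ g : k) * β (ρ g⁻¹ x) y
  rw [← hβ g (ρ g⁻¹ x) y, ← Module.End.mul_apply, ← map_mul, mul_inv_cancel, map_one,
    Module.End.one_apply]

/-- a subspace `P` pairs injectively into the dual of `Q` as soon as every `y` is congruent to an
element of `Q` modulo the orthogonal of `P`. -/
theorem finrank_le_of_pairing {k : Type} [Field k] {V V' : Type} [AddCommGroup V] [Module k V]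
    [AddCommGroup V'] [Module k V'] [FiniteDimensional k V']
    (β : V →ₗ[k] V' →ₗ[k] k) (hβl : ∀ x, (∀ y, β x y = 0) → x = 0) (P : Submodule k V)
    (Q : Submodule k V') (hdec : ∀ y : V', ∃ q ∈ Q, ∀ x ∈ P, β x y = β x q) :
    finrank k P ≤ finrank k Q := by
  have hinj : Function.Injective (β.domRestrict₁₂ P Q) := by
    rw [injective_iff_map_eq_zero]
    intro x hx
    apply Subtype.ext
    refine hβl x fun y => ?_
    obtain ⟨q, hq, h⟩ := hdec y
    rw [h x x.2]
    exact LinearMap.congr_fun hx ⟨q, hq⟩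
  have h1 := LinearMap.finrank_le_finrank_of_injective hinj
  have h2 : finrank k (↥Q →ₗ[k] k) = finrank k Q := Subspace.dual_finrank_eq
  rwa [h2] at h1

/-- the `c = 1` part of `V` and the `c = -1` part of `V'` have the same dimension (`c² = 1`, `χ c = -1`, `2 ≠ 0`):
`V = V⁺ ⊕ V⁻`, `V' = V'⁺ ⊕ V'⁻`, `β(V⁺,V'⁺) = 0 = β(V⁻,V'⁻)`, so `V⁺ ↪ (V'⁻)^*` and `V'⁻ ↪ (V⁺)^*`. -/
theorem finrank_fix_eq_finrank_neg {k : Type} [Field k] (h2 : (2 : k) ≠ 0) {G : Type} [Group G]
    {V V' : Type} [AddCommGroup V] [Module k V] [FiniteDimensional k V] [AddCommGroup V']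
    [Module k V'] [FiniteDimensional k V'] (ρ : Representation k G V) (ρ' : Representation k G V')
    (χ : G →* kˣ) (β : V →ₗ[k] V' →ₗ[k] k) (hβ : IsEquivPairing ρ ρ' χ β)
    (hβl : ∀ x, (∀ y, β x y = 0) → x = 0) (hβr : ∀ y, (∀ x, β x y = 0) → y = 0)
    (c : G) (hc : c * c = 1) (hχ : χ c = -1) :
    finrank k ↥(LinearMap.ker (ρ c - LinearMap.id)) = finrank k ↥(LinearMap.ker (ρ' c + LinearMap.id)) := by
  have h2' : (2 : k)⁻¹ * 2 = 1 := inv_mul_cancel₀ h2
  have hcc : ∀ x, ρ c (ρ c x) = x := fun x => by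
    rw [← Module.End.mul_apply, ← map_mul, hc, map_one, Module.End.one_apply]
  have hcc' : ∀ y, ρ' c (ρ' c y) = y := fun y => by
    rw [← Module.End.mul_apply, ← map_mul, hc, map_one, Module.End.one_apply]
  have hβc : ∀ x y, β (ρ c x) (ρ' c y) = - β x y := fun x y => by
    rw [hβ c x y, hχ]
    simp
  refine le_antisymm ?_ ?_
  · refine finrank_le_of_pairing β hβl _ _ fun y => ⟨(2 : k)⁻¹ • (y - ρ' c y), ?_, fun x hx => ?_⟩
    · rw [LinearMap.mem_ker, LinearMap.add_apply, LinearMap.id_apply, map_smul, map_sub, hcc',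
        ← smul_add]
      simp
    · have hx' : ρ c x = x := by
        have := LinearMap.mem_ker.1 hx
        rwa [LinearMap.sub_apply, LinearMap.id_apply, sub_eq_zero] at this
      have h3 := hβc x y
      rw [hx'] at h3
      rw [map_smul, map_sub, h3, smul_eq_mul]
      linear_combination (-(β x y)) * h2'
  · refine finrank_le_of_pairing β.flip hβr _ _
      fun x => ⟨(2 : k)⁻¹ • (x + ρ c x), ?_, fun y hy => ?_⟩
    · rw [LinearMap.mem_ker, LinearMap.sub_apply, LinearMap.id_apply, map_smul, map_add, hcc,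
        ← smul_sub, add_comm, sub_self, smul_zero]
    · have hy' : ρ' c y = - y := by
        have := LinearMap.mem_ker.1 hy
        rwa [LinearMap.add_apply, LinearMap.id_apply, add_eq_zero_iff_eq_neg] at this
      have h3 := hβc x y
      rw [hy', map_neg, neg_inj] at h3
      rw [LinearMap.flip_apply, LinearMap.flip_apply, map_smul, map_add, LinearMap.smul_apply,
        LinearMap.add_apply, h3, smul_eq_mul]
      linear_combination (-(β x y)) * h2'

end Fermat.Agent.CFT
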